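/-
S42 (wave 9, row 8): the frozen statement S42 from the frozen statement S29.

`result_of_S29 : S29Stmt → ∀ P M, 0 < M → P.EigenformResidualAttachmentAt M`.

For a normalised eigenform `g`, a maximal ideal `𝔪` of `ℤ̄` containing `p`, take `K := ℤ̄ ⧸ 𝔪`
(a field of characteristic `p`), `ψ` the quotient map and `ρ` the residual representation given
by S29.  Trace and determinant of Frobenius are read off the characteristic polynomial; the number
field `F` is the normal closure of the compositum of a finite level of `ρ` with the field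
generated by the coordinates of the (finitely many, `S13.DPGlue.frey_T`) `p`-torsion points of
the Frey curve.
-/
import Fermat.Prelude.Def_FreyPackage_EigenformResidualAttachment
import Fermat.Prelude.Def_GaloisRep_Residual
import Fermat.Agent.S13.DPGlue

set_option autoImplicit false
set_option linter.style.haveILetI false

open WeierstrassCurve WeierstrassCurve.Affine.Point Polynomial

namespace Fermat.Agent.S42.Top

/-- The frozen statement S29, as a proposition. -/
def S29Stmt : Prop :=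
  ∀ {N : ℕ} {g : CuspForm (CongruenceSubgroup.Gamma0 N) 2} (_ : g.IsNormalizedEigenform)
    {p : ℕ} (_ : p.Prime) {k : Type} [Field k] [CharP k p]
    (φ : integralClosure ℤ ℂ →+* k),
    ∃ ρ : ResidualGaloisRep k, ρ.IsAttachedTo g φ ∧
      ∀ ℓ : ℕ, ℓ.Prime → ¬ ℓ ∣ N * p → ρ.IsUnramifiedAt ℓ

/-! ### Trace and determinant from the characteristic polynomial -/

theorem trace_det_of_charpoly {K V : Type*} [Field K] [AddCommGroup V] [Module K V]
    [Module.Finite K V] (h2 : Module.finrank K V = 2) (f : Module.End K V) (a b : K)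
    (h : f.charpoly = X ^ 2 - C a * X + C b) :
    LinearMap.trace K V f = a ∧ LinearMap.det f = b := by
  let bas : Module.Basis (Fin 2) K V := Module.finBasisOfFinrankEq K V h2
  have hc : (LinearMap.toMatrix bas bas f).charpoly = X ^ 2 - C a * X + C b := by
    rw [LinearMap.charpoly_toMatrix, h]
  have h1 : (X ^ 2 - C a * X + C b : K[X]).coeff 1 = -a := by
    simp [coeff_X_pow, coeff_C]
  have h0 : (X ^ 2 - C a * X + C b : K[X]).coeff 0 = b := by
    simp [coeff_X_pow]
  constructor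
  · rw [LinearMap.trace_eq_matrix_trace K bas f, Matrix.trace_eq_neg_charpoly_coeff, hc]
    simp only [Fintype.card_fin, Nat.add_one_sub_one]
    rw [h1, neg_neg]
  · rw [← LinearMap.det_toMatrix bas f, Matrix.det_eq_sign_charpoly_coeff, hc, h0]
    simp

/-! ### Finite level of the `p`-torsion of the Frey curve -/

open Fermat.Agent.S13 in
theorem frey_finLevel (P : FreyPackage) :
    ∃ L : IntermediateField ℚ (AlgebraicClosure ℚ), FiniteDimensional ℚ L ∧
      ∀ σ : AlgebraicClosure ℚ ≃ₐ[ℚ] AlgebraicClosure ℚ, (∀ x ∈ L, σ x = x) →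
        ∀ Q : Vp P.freyCurve P.p, σ • Q = Q := by
  obtain ⟨-, hfin, -⟩ := DPGlue.frey_T P
  have := hfin
  let s : Set (AlgebraicClosure ℚ) :=
    Set.range (fun Q : Vp P.freyCurve P.p => xc P.freyCurve Q.1) ∪
      Set.range (fun Q : Vp P.freyCurve P.p => yc P.freyCurve Q.1)
  have hsfin : s.Finite := (Set.finite_range _).union (Set.finite_range _)
  have halg : Algebra.IsAlgebraic ℚ (AlgebraicClosure ℚ) := AlgebraicClosure.isAlgebraic ℚ
  refine ⟨IntermediateField.adjoin ℚ s, ?_, ?_⟩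
  · have : Finite s := hsfin.to_subtype
    exact IntermediateField.finiteDimensional_adjoin
      (fun x _ => (halg.isAlgebraic x).isIntegral)
  · intro σ hσ Q
    apply Subtype.ext
    apply smul_eq_self_of_coords
    · exact hσ _ (IntermediateField.subset_adjoin ℚ s (Or.inl ⟨Q, rfl⟩))
    · exact hσ _ (IntermediateField.subset_adjoin ℚ s (Or.inr ⟨Q, rfl⟩))

/-! ### Transport of instances along the unique `ℚ`-algebra structure -/

theorem isGalois_of_algebra_rat {F : Type*} [Field F] (a1 a2 : Algebra ℚ F)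
    (h : @IsGalois ℚ _ F _ a1) : @IsGalois ℚ _ F _ a2 := by
  obtain rfl : a1 = a2 := Subsingleton.elim _ _
  exact h

/-! ### The statement -/

open Fermat.Agent.S13 in
theorem result_of_S29 (h29 : S29Stmt) (P : FreyPackage) :
    ∀ M : ℕ, 0 < M → P.EigenformResidualAttachmentAt M := by
  intro M _ g hg 𝔪 h𝔪 hp𝔪
  letI : Field (integralClosure ℤ ℂ ⧸ 𝔪) := Ideal.Quotient.field 𝔪
  have h0 : ((P.p : ℕ) : integralClosure ℤ ℂ ⧸ 𝔪) = 0 := by
    have h1 : (Ideal.Quotient.mk 𝔪) ((P.p : ℕ) : integralClosure ℤ ℂ) = 0 :=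
      Ideal.Quotient.eq_zero_iff_mem.2 hp𝔪
    simpa using h1
  haveI hchar : CharP (integralClosure ℤ ℂ ⧸ 𝔪) P.p := (CharP.charP_iff_prime_eq_zero P.pp).2 h0
  letI : Algebra (ZMod P.p) (integralClosure ℤ ℂ ⧸ 𝔪) := ZMod.algebra _ P.p
  obtain ⟨ρ, hatt, -⟩ := h29 hg P.pp (Ideal.Quotient.mk 𝔪)
  obtain ⟨Lρ, hLρ, hρ1⟩ := ρ.factorsThroughFiniteLevel
  obtain ⟨LE, hLE, hE1⟩ := frey_finLevel P
  let F : IntermediateField ℚ (AlgebraicClosure ℚ) :=
    IntermediateField.normalClosure ℚ ↥(Lρ ⊔ LE) (AlgebraicClosure ℚ)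
  have hle : Lρ ⊔ LE ≤ F := IntermediateField.le_normalClosure _
  have hFfin : FiniteDimensional ℚ ↥F := normalClosure.is_finiteDimensional ℚ ↥(Lρ ⊔ LE) (AlgebraicClosure ℚ)
  have hcl : IsAlgClosure ℚ (AlgebraicClosure ℚ) := AlgebraicClosure.instIsAlgClosure ℚ
  have hQbnormal : Normal ℚ (AlgebraicClosure ℚ) := IsAlgClosure.normal ℚ (AlgebraicClosure ℚ)
  have hFnormal : Normal ℚ ↥F := normalClosure.normal ℚ ↥(Lρ ⊔ LE) (AlgebraicClosure ℚ)
  have hFgal : IsGalois ℚ ↥F := { }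
  refine ⟨integralClosure ℤ ℂ ⧸ 𝔪, inferInstance, inferInstance, ρ.V, inferInstance, inferInstance,
    ρ.ρ, Ideal.Quotient.mk 𝔪, ↥F, inferInstance, ?_, ?_, inferInstance, ?_, ?_⟩
  · exact { to_charZero := inferInstance, to_finiteDimensional := hFfin }
  · exact isGalois_of_algebra_rat _ _ hFgal
  · refine ⟨fun q x y => ?_⟩
    exact smul_assoc q x y
  · refine ⟨(Ideal.mk_ker (I := 𝔪)).ge, ρ.finrank_eq, ?_, ?_, ?_⟩
    · intro σ hσ
      rw [MonoidHom.mem_ker] at hσ
      have hfix : ∀ x ∈ F, σ x = x := by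
        intro x hx
        have h1 := AlgEquiv.restrictNormal_commutes σ ↥F ⟨x, hx⟩
        have h2 : σ.restrictNormal ↥F = 1 := hσ
        rw [h2] at h1
        exact h1.symm
      rw [Subgroup.mem_inf, MonoidHom.mem_ker, MonoidHom.mem_ker]
      constructor
      · refine LinearMap.ext fun Q => ?_
        exact hE1 σ (fun x hx => hfix x (hle ((le_sup_right : LE ≤ Lρ ⊔ LE) hx))) Q
      · exact hρ1 σ (fun x hx => hfix x (hle ((le_sup_left : Lρ ≤ Lρ ⊔ LE) hx)))
    · intro ℓ hℓ hℓM hℓp A hA τ hτ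
      have hℓk : ((ℓ : ℕ) : integralClosure ℤ ℂ ⧸ 𝔪) ≠ 0 := by
        intro h
        rw [CharP.cast_eq_zero_iff (integralClosure ℤ ℂ ⧸ 𝔪) P.p] at h
        exact hℓp ((Nat.prime_dvd_prime_iff_eq P.pp hℓ).1 h).symm
      obtain ⟨a, ha, hcp⟩ := hatt ℓ hℓ hℓM hℓk A hA τ hτ
      exact ⟨a, ha, (trace_det_of_charpoly ρ.finrank_eq _ _ _ hcp).1⟩
    · intro ℓ hℓ hℓM hℓp A hA τ hτ
      have hℓk : ((ℓ : ℕ) : integralClosure ℤ ℂ ⧸ 𝔪) ≠ 0 := by
        intro h
        rw [CharP.cast_eq_zero_iff (integralClosure ℤ ℂ ⧸ 𝔪) P.p] at h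
        exact hℓp ((Nat.prime_dvd_prime_iff_eq P.pp hℓ).1 h).symm
      obtain ⟨a, ha, hcp⟩ := hatt ℓ hℓ hℓM hℓk A hA τ hτ
      exact (trace_det_of_charpoly ρ.finrank_eq _ _ _ hcp).2

end Fermat.Agent.S42.Top
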